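import Mathlib
import Fermat.Prelude.Def_GaloisRep_DeformationCondition

/-!
# Abstract pro-representability of closed subfunctors of affine space (interface)

`X` is a type of "coordinates".  A *problem* is a predicate `F` on functions `X → A`, for `A` an
Artinian test algebra over `𝒪` (complete DVR with finite residue field `k`), which is stable under
push-forward, descends along injections, is compatible with fibre products, has all its points
congruent to a fixed `c : X → 𝒪` modulo the maximal ideal, has a point over `k` and finitely many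
points over `k[ε]`.

The main statement (`ProRepStatement`) says that such a problem is pro-represented by a complete
Noetherian local `𝒪`-algebra with residue field `k`.
-/

set_option autoImplicit false

namespace Fermat.Agent.H58

open IsLocalRing GaloisRep

/-- The `𝒪`-algebra structure on `k[ε]` used by the Prelude's `GaloisRep.TangentFinite`. -/
@[reducible] noncomputable def dualNumberAlgebra (𝒪 : Type) [CommRing 𝒪] [IsLocalRing 𝒪] :
    Algebra 𝒪 (DualNumber (ResidueField 𝒪)) :=
  ((algebraMap (ResidueField 𝒪) (DualNumber (ResidueField 𝒪))).comp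
    (algebraMap 𝒪 (ResidueField 𝒪))).toAlgebra

/-- A closed subfunctor of affine `X`-space on Artinian test algebras, with finite tangent space. -/
structure IsRepresentableProblem (𝒪 : Type) [CommRing 𝒪] [IsLocalRing 𝒪] (X : Type)
    (F : ∀ ⦃A : Type⦄ [CommRing A] [IsLocalRing A] [Algebra 𝒪 A], (X → A) → Prop)
    (c : X → 𝒪) : Prop where
  /-- every point reduces to the fixed point `c` modulo the maximal ideal -/
  residue_eq : ∀ ⦃A : Type⦄ [CommRing A] [IsLocalRing A] [Algebra 𝒪 A],
    IsArtinianTestAlgebra 𝒪 A → ∀ m : X → A, F m →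
      ∀ x, m x - algebraMap 𝒪 A (c x) ∈ maximalIdeal A
  /-- push-forward along algebra homomorphisms -/
  map : ∀ ⦃A B : Type⦄ [CommRing A] [IsLocalRing A] [Algebra 𝒪 A]
    [CommRing B] [IsLocalRing B] [Algebra 𝒪 B],
    IsArtinianTestAlgebra 𝒪 A → IsArtinianTestAlgebra 𝒪 B →
    ∀ (φ : A →ₐ[𝒪] B) (m : X → A), F m → F (fun x => φ (m x))
  /-- descent along injective algebra homomorphisms -/
  of_injective : ∀ ⦃A B : Type⦄ [CommRing A] [IsLocalRing A] [Algebra 𝒪 A]
    [CommRing B] [IsLocalRing B] [Algebra 𝒪 B],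
    IsArtinianTestAlgebra 𝒪 A → IsArtinianTestAlgebra 𝒪 B →
    ∀ (φ : A →ₐ[𝒪] B), Function.Injective φ → ∀ m : X → A, F (fun x => φ (m x)) → F m
  /-- compatibility with fibre products -/
  of_fibreProduct : ∀ ⦃A B C P : Type⦄ [CommRing A] [IsLocalRing A] [Algebra 𝒪 A]
    [CommRing B] [IsLocalRing B] [Algebra 𝒪 B] [CommRing C] [IsLocalRing C] [Algebra 𝒪 C]
    [CommRing P] [IsLocalRing P] [Algebra 𝒪 P],
    IsArtinianTestAlgebra 𝒪 A → IsArtinianTestAlgebra 𝒪 B → IsArtinianTestAlgebra 𝒪 C →
    IsArtinianTestAlgebra 𝒪 P →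
    ∀ (f : A →ₐ[𝒪] C) (g : B →ₐ[𝒪] C) (pA : P →ₐ[𝒪] A) (pB : P →ₐ[𝒪] B),
      f.comp pA = g.comp pB →
      Function.Injective (fun x => (pA x, pB x)) →
      (∀ a b, f a = g b → ∃ x, pA x = a ∧ pB x = b) →
      ∀ m : X → P, F (fun x => pA (m x)) → F (fun x => pB (m x)) → F m
  /-- the reduction of `c` is a point over the residue field -/
  residue_mem : F (fun x => IsLocalRing.residue 𝒪 (c x))
  /-- finiteness of the tangent space -/
  finite_tangent :
    letI : Algebra 𝒪 (DualNumber (ResidueField 𝒪)) := dualNumberAlgebra 𝒪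
    Finite {m : X → DualNumber (ResidueField 𝒪) // F m}

/-- The conclusion of the abstract pro-representability theorem, for a given problem. -/
def HasUniversalObject (𝒪 : Type) [CommRing 𝒪] [IsLocalRing 𝒪] (X : Type)
    (F : ∀ ⦃A : Type⦄ [CommRing A] [IsLocalRing A] [Algebra 𝒪 A], (X → A) → Prop) : Prop :=
  ∃ (R : Type) (_ : CommRing R) (_ : IsLocalRing R) (_ : IsNoetherianRing R)
    (_ : IsAdicComplete (maximalIdeal R) R) (_ : Algebra 𝒪 R)
    (_ : IsLocalHom (algebraMap 𝒪 R)),
    Function.Surjective (IsLocalRing.residue R ∘ algebraMap 𝒪 R) ∧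
    ∃ mR : X → R,
      (∀ ⦃B : Type⦄ [CommRing B] [IsLocalRing B] [Algebra 𝒪 B], IsArtinianTestAlgebra 𝒪 B →
        ∀ q : R →ₐ[𝒪] B, F (fun x => q (mR x))) ∧
      (∀ ⦃A : Type⦄ [CommRing A] [IsLocalRing A] [Algebra 𝒪 A], IsArtinianTestAlgebra 𝒪 A →
        ∀ m : X → A, F m → ∃! φ : R →ₐ[𝒪] A, ∀ x, φ (mR x) = m x)

/-- The abstract pro-representability theorem, as a `Prop` (so that consumers can take it as a
hypothesis while it is being proved). -/
def ProRepStatement : Prop :=
  ∀ (𝒪 : Type) [CommRing 𝒪] [IsDomain 𝒪] [IsDiscreteValuationRing 𝒪]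
    [IsAdicComplete (maximalIdeal 𝒪) 𝒪] [Finite (ResidueField 𝒪)] (X : Type)
    (F : ∀ ⦃A : Type⦄ [CommRing A] [IsLocalRing A] [Algebra 𝒪 A], (X → A) → Prop)
    (c : X → 𝒪), IsRepresentableProblem 𝒪 X F c → HasUniversalObject 𝒪 X F

end Fermat.Agent.H58
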